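/-
S48 / Tower A1 (helper68) — leaf PGI1 / VAL1 in FUNCTION form, GENERIC part.

`F₀ = ℚ(S) ⊆ ℚ((q))` generated by series with INTEGRAL coefficients, `A ⊆ ℚ̄` a valuation subring over
a prime.  Every nonzero `f ∈ ℚ̄ · F₀` is `c · U₁ / U₂` with `c ∈ ℚ̄ˣ` and `U₁, U₂ ∈ A((q))` lying in
`ℚ̄ · F₀`, with NONZERO reduction modulo the maximal ideal of `A` (Gauss normalisation).

Route: descent of `f` to a number field `E` (`S18.H602.exists_finite_descent`), `A ∩ E` is a discrete
valuation ring (`S18.H602.isDiscreteValuationRing_RE`), bounded denominators on the field generated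
by integral series and division by the coefficient of minimal valuation
(`S48.H856.GaussHyp.exists_prim_quot`).  No reduction field, no CoreData, no degree argument.
-/
import Fermat.Agent.S18.H602.DVR
import Fermat.Agent.S48.H856.GaussRing

set_option autoImplicit false
set_option linter.style.haveILetI false

noncomputable section

namespace Fermat.Agent.S48.H68

open ModularCurve AlgebraicCurve HahnSeries IsLocalRing
open Fermat.Agent.S18.H602 (RE toA)
open Fermat.Agent.S48.H856 (IsInt IsPrim IsBd HasBd GaussHyp IsDiscrete)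

local notation "Q̄" => AlgebraicClosure ℚ

/-! ### A discrete valuation subring has a uniformiser in the sense of `H856.IsDiscrete` -/

theorem exists_isDiscrete_of_dvr {K : Type*} [Field K] (V : ValuationSubring K)
    [IsDiscreteValuationRing V] : ∃ w₀ : K, IsDiscrete V w₀ := by
  obtain ⟨ϖ, hϖ⟩ := IsDiscreteValuationRing.exists_irreducible V
  refine ⟨(ϖ : K), ?_, ?_, ?_⟩
  · have h1 : ϖ ∈ IsLocalRing.maximalIdeal V := by
      rw [IsLocalRing.mem_maximalIdeal, mem_nonunits_iff]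
      exact hϖ.not_isUnit
    exact (ValuationSubring.valuation_lt_one_iff V ϖ).mp h1
  · intro h0
    exact hϖ.ne_zero (Subtype.ext h0)
  · intro y hy
    obtain ⟨n, u, hu⟩ :=
      IsDiscreteValuationRing.exists_units_eq_smul_zpow_of_irreducible (K := K) hϖ hy
    refine ⟨n, ?_⟩
    rw [hu, Units.smul_def, Algebra.smul_def, map_mul, map_zpow₀]
    have h1 : V.valuation (algebraMap V K (u : V)) = 1 := V.valuation_unit u
    rw [h1, one_mul]
    rfl

/-! ### Bounded denominators on `E · F₀` -/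

section Bd

variable {E : Type*} [Field E] [Algebra ℚ E] (𝒪 : ValuationSubring E) (w₀ : E)
  (F₀ : IntermediateField ℚ (LaurentSeries ℚ))

/-- The expansion map of the field `E · F₀`: the inclusion into `E((q))`. -/
abbrev exL : ↥(laurentBaseChange E F₀) →+* LaurentSeries E :=
  (laurentBaseChange E F₀).val.toRingHom

/-- The constant `w₀` as an element of `E · F₀`. -/
abbrev wL : ↥(laurentBaseChange E F₀) := algebraMap E ↥(laurentBaseChange E F₀) w₀

omit [Algebra ℚ E] in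
theorem algebraMap_eq_C (a : E) :
    algebraMap E (LaurentSeries E) a = (HahnSeries.C a : LaurentSeries E) := by
  rw [algebraMap_laurentSeries_eq_single]
  rfl

theorem gaussHyp_exL (hd : IsDiscrete 𝒪 w₀) : GaussHyp 𝒪 (exL F₀) w₀ (wL w₀ F₀) :=
  ⟨hd, algebraMap_eq_C w₀⟩

variable {𝒪 w₀ F₀}

theorem hasBd_const (a : E) :
    HasBd 𝒪 (exL F₀) (wL w₀ F₀) (algebraMap E ↥(laurentBaseChange E F₀) a) := by
  have key : ∀ b : E, b ∈ 𝒪 →
      HasBd 𝒪 (exL F₀) (wL w₀ F₀) (algebraMap E ↥(laurentBaseChange E F₀) b) := by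
    intro b hb
    refine Fermat.Agent.S48.H856.hasBd_of_isBd (Fermat.Agent.S48.H856.isBd_of_isInt ?_)
    show IsInt 𝒪 (algebraMap E (LaurentSeries E) b)
    rw [algebraMap_eq_C]
    exact Fermat.Agent.S48.H856.isInt_C hb
  rcases 𝒪.mem_or_inv_mem a with ha | ha
  · exact key a ha
  · have h := (key a⁻¹ ha).inv
    rwa [← map_inv₀, inv_inv] at h

variable (𝒪 w₀ F₀)

/-- The elements of `E · F₀` which are quotients of elements with bounded denominators, as a
subfield of `E((q))`. -/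
def bdSubfield (hd : IsDiscrete 𝒪 w₀) : Subfield (LaurentSeries E) where
  carrier := {x | ∃ a : ↥(laurentBaseChange E F₀),
    HasBd 𝒪 (exL F₀) (wL w₀ F₀) a ∧ (a : LaurentSeries E) = x}
  mul_mem' := by
    rintro _ _ ⟨a, ha, rfl⟩ ⟨b, hb, rfl⟩
    exact ⟨a * b, ha.mul hb, IntermediateField.coe_mul _ a b⟩
  one_mem' := ⟨1, Fermat.Agent.S48.H856.hasBd_of_isBd Fermat.Agent.S48.H856.isBd_one,
    IntermediateField.coe_one _⟩
  add_mem' := by
    rintro _ _ ⟨a, ha, rfl⟩ ⟨b, hb, rfl⟩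
    exact ⟨a + b, ha.add (gaussHyp_exL 𝒪 w₀ F₀ hd) hb, IntermediateField.coe_add _ a b⟩
  zero_mem' := ⟨0, Fermat.Agent.S48.H856.hasBd_of_isBd Fermat.Agent.S48.H856.isBd_zero,
    IntermediateField.coe_zero _⟩
  neg_mem' := by
    rintro _ ⟨a, ha, rfl⟩
    exact ⟨-a, ha.neg, IntermediateField.coe_neg _ a⟩
  inv_mem' := by
    rintro _ ⟨a, ha, rfl⟩
    exact ⟨a⁻¹, ha.inv, IntermediateField.coe_inv _ a⟩

variable {𝒪 w₀ F₀}

theorem mem_bdSubfield (hd : IsDiscrete 𝒪 w₀) {x : LaurentSeries E} :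
    x ∈ bdSubfield 𝒪 w₀ F₀ hd ↔
      ∃ a : ↥(laurentBaseChange E F₀),
        HasBd 𝒪 (exL F₀) (wL w₀ F₀) a ∧ (a : LaurentSeries E) = x := Iff.rfl

theorem algebraMap_mem_bdSubfield (hd : IsDiscrete 𝒪 w₀) (a : E) :
    algebraMap E (LaurentSeries E) a ∈ bdSubfield 𝒪 w₀ F₀ hd :=
  ⟨algebraMap E ↥(laurentBaseChange E F₀) a, hasBd_const a, rfl⟩

/-- The image of an integral series lies in `bdSubfield`. -/
theorem coeffMap_int_mem_bdSubfield (hd : IsDiscrete 𝒪 w₀) (X : LaurentSeries ℤ)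
    (hX : coeffMap (Int.castRingHom E) X ∈ laurentBaseChange E F₀) :
    coeffMap (Int.castRingHom E) X ∈ bdSubfield 𝒪 w₀ F₀ hd := by
  refine ⟨⟨_, hX⟩, Fermat.Agent.S48.H856.hasBd_of_isBd
    (Fermat.Agent.S48.H856.isBd_of_isInt ?_), rfl⟩
  intro k
  show (coeffMap (Int.castRingHom E) X).coeff k ∈ 𝒪
  rw [coeffMap_coeff]
  exact intCast_mem 𝒪 _

end Bd

/-! ### Fields generated by integral series -/

section Gens

variable {E : Type*} [Field E] [Algebra ℚ E] {𝒪 : ValuationSubring E} {w₀ : E}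

/-- `S` consists of (images of) Laurent series with integral coefficients. -/
def IntegralGens (S : Set (LaurentSeries ℚ)) : Prop :=
  ∀ s ∈ S, ∃ X : LaurentSeries ℤ, s = coeffMap (Int.castRingHom ℚ) X

theorem coeffEmb_intCast (X : LaurentSeries ℤ) :
    coeffEmb E (coeffMap (Int.castRingHom ℚ) X) = coeffMap (Int.castRingHom E) X := by
  rw [coeffEmb, coeffMap_coeffMap]
  exact coeffMap_congr (RingHom.ext_int _ _) X

omit [Algebra ℚ E] in
theorem coeffMap_C' {E' : Type*} [Field E'] (φ : E →+* E') (a : E) :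
    coeffMap φ (HahnSeries.C a : LaurentSeries E) = HahnSeries.C (φ a) := by
  show coeffMap φ (HahnSeries.single 0 a) = HahnSeries.single 0 (φ a)
  rw [coeffMap_single]

/-- Every element of `E · ℚ(S)` is a quotient of elements with bounded denominators. -/
theorem le_bdSubfield (hd : IsDiscrete 𝒪 w₀) {S : Set (LaurentSeries ℚ)} (hS : IntegralGens S) :
    (laurentBaseChange E (IntermediateField.adjoin ℚ S)).toSubfield
      ≤ bdSubfield 𝒪 w₀ (IntermediateField.adjoin ℚ S) hd := by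
  intro x hx
  have hx' : x ∈ Subfield.closure (Set.range (algebraMap E (LaurentSeries E)) ∪
      (⇑(coeffEmb E) '' ((IntermediateField.adjoin ℚ S : IntermediateField ℚ (LaurentSeries ℚ)) :
        Set (LaurentSeries ℚ)))) := mem_laurentBaseChange_iff.1 hx
  refine Subfield.closure_le.2 ?_ hx'
  rintro y (⟨a, rfl⟩ | ⟨z, hz, rfl⟩)
  · exact algebraMap_mem_bdSubfield hd a
  · have hz' : z ∈ Subfield.closure (Set.range (algebraMap ℚ (LaurentSeries ℚ)) ∪ S) := hz
    have hle : Subfield.closure (Set.range (algebraMap ℚ (LaurentSeries ℚ)) ∪ S)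
        ≤ (bdSubfield 𝒪 w₀ (IntermediateField.adjoin ℚ S) hd).comap (coeffEmb E) := by
      refine Subfield.closure_le.2 ?_
      rintro t (⟨r, rfl⟩ | ht)
      · show coeffEmb E (algebraMap ℚ (LaurentSeries ℚ) r)
          ∈ bdSubfield 𝒪 w₀ (IntermediateField.adjoin ℚ S) hd
        rw [coeffEmb, Fermat.Agent.S18.H602.coeffMap_algebraMap']
        exact algebraMap_mem_bdSubfield hd _
      · obtain ⟨X, rfl⟩ := hS t ht
        show coeffEmb E (coeffMap (Int.castRingHom ℚ) X)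
          ∈ bdSubfield 𝒪 w₀ (IntermediateField.adjoin ℚ S) hd
        have hmem := coeffEmb_mem_laurentBaseChange E
          (IntermediateField.subset_adjoin ℚ S ht)
        rw [coeffEmb_intCast] at hmem ⊢
        exact coeffMap_int_mem_bdSubfield hd X hmem
    exact hle hz'

/-- **Gauss normalisation over a discrete valuation ring**: every nonzero element of `E · ℚ(S)` is
`w₀ ^ (-n)` times a quotient of two primitive series of `E · ℚ(S)`. -/
theorem exists_prim_quot_lbc (hd : IsDiscrete 𝒪 w₀) {S : Set (LaurentSeries ℚ)}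
    (hS : IntegralGens S) {y : LaurentSeries E}
    (hy : y ∈ laurentBaseChange E (IntermediateField.adjoin ℚ S)) (hy0 : y ≠ 0) :
    ∃ (n : ℤ) (P₁ P₂ : LaurentSeries E),
      P₁ ∈ laurentBaseChange E (IntermediateField.adjoin ℚ S) ∧
      P₂ ∈ laurentBaseChange E (IntermediateField.adjoin ℚ S) ∧
      IsPrim 𝒪 P₁ ∧ IsPrim 𝒪 P₂ ∧ y * (HahnSeries.C w₀ : LaurentSeries E) ^ n * P₂ = P₁ := by
  obtain ⟨a, ha, rfl⟩ := le_bdSubfield hd hS hy
  have ha0 : a ≠ 0 := by
    rintro rfl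
    exact hy0 rfl
  obtain ⟨n, P₁, P₂, h1, h2, h3⟩ :=
    (gaussHyp_exL 𝒪 w₀ (IntermediateField.adjoin ℚ S) hd).exists_prim_quot ha ha0
  refine ⟨n, P₁, P₂, P₁.2, P₂.2, h1, h2, ?_⟩
  have h4 := congrArg (exL (IntermediateField.adjoin ℚ S)) h3
  rw [map_mul, map_mul, map_zpow₀] at h4
  have h5 : exL (IntermediateField.adjoin ℚ S) (wL w₀ (IntermediateField.adjoin ℚ S))
      = (HahnSeries.C w₀ : LaurentSeries E) := algebraMap_eq_C w₀
  rw [h5] at h4
  exact h4

end Gens

/-! ### Transport to `A ⊆ ℚ̄` -/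

section Transport

variable (A : ValuationSubring Q̄) (E : IntermediateField ℚ Q̄)

/-- A primitive series over `A ∩ E` gives a series over `A` with nonzero reduction. -/
theorem exists_lift_of_isPrim {P : LaurentSeries E} (hP : IsPrim (RE A E) P) :
    ∃ U : LaurentSeries A, coeffMap A.subtype U = coeffMap (algebraMap E Q̄) P ∧
      coeffMap (residue A) U ≠ 0 := by
  have hc : ∀ n, (coeffMap (algebraMap E Q̄) P).coeff n ∈ Set.range A.subtype := fun n =>
    ⟨⟨algebraMap E Q̄ (P.coeff n), hP.1 n⟩, rfl⟩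
  obtain ⟨U, hU⟩ := Fermat.Agent.S18.H602.exists_coeffMap_eq A.subtype Subtype.val_injective _ hc
  refine ⟨U, hU, ?_⟩
  obtain ⟨k, hk⟩ := hP.2
  intro h0
  have h1 : residue A (U.coeff k) = 0 := by
    have h2 := congrArg (fun z => z.coeff k) h0
    simpa using h2
  have hUk : ((U.coeff k : A) : Q̄) = algebraMap E Q̄ (P.coeff k) := by
    have h2 := congrArg (fun z => z.coeff k) hU
    simpa using h2
  have hne : P.coeff k ≠ 0 := by
    intro h
    rw [h, map_zero] at hk
    exact zero_ne_one hk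
  have hinv : (P.coeff k)⁻¹ ∈ RE A E := by
    rw [← ValuationSubring.valuation_le_one_iff, map_inv₀, hk, inv_one]
  have hunit : IsUnit (U.coeff k) := by
    refine isUnit_iff_exists_inv.2 ⟨⟨algebraMap E Q̄ (P.coeff k)⁻¹, hinv⟩, Subtype.ext ?_⟩
    show ((U.coeff k : A) : Q̄) * algebraMap E Q̄ (P.coeff k)⁻¹ = 1
    rw [hUk, ← map_mul, mul_inv_cancel₀ hne, map_one]
  have h3 : U.coeff k ∈ IsLocalRing.maximalIdeal A := (IsLocalRing.residue_eq_zero_iff _).1 h1
  exact (IsLocalRing.mem_maximalIdeal _).1 h3 hunit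

end Transport

/-! ### The main theorem -/

/-- **Gauss normalisation (function form of PGI, no reduction field).**  Let `F₀ = ℚ(S)` be
generated by series with integral coefficients and let `A ⊆ ℚ̄` be a valuation subring over a
prime `ℓ`.  Every nonzero `f ∈ ℚ̄ · F₀` satisfies `f · U₂ = c · U₁` with `c ∈ ℚ̄ˣ` and
`U₁, U₂ ∈ A((q))` lying in `ℚ̄ · F₀` with nonzero reduction. -/
theorem exists_gauss_normal {S : Set (LaurentSeries ℚ)} (hS : IntegralGens S)
    (A : ValuationSubring Q̄) {ℓ : ℕ} (hℓ : ℓ ≠ 0) (hA : (ℓ : Q̄) ∈ A.nonunits)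
    {f : LaurentSeries Q̄} (hf : f ∈ laurentBaseChange Q̄ (IntermediateField.adjoin ℚ S))
    (hf0 : f ≠ 0) :
    ∃ (c : Q̄) (U₁ U₂ : LaurentSeries A), c ≠ 0 ∧
      coeffMap A.subtype U₁ ∈ laurentBaseChange Q̄ (IntermediateField.adjoin ℚ S) ∧
      coeffMap (residue A) U₁ ≠ 0 ∧
      coeffMap A.subtype U₂ ∈ laurentBaseChange Q̄ (IntermediateField.adjoin ℚ S) ∧
      coeffMap (residue A) U₂ ≠ 0 ∧
      f * coeffMap A.subtype U₂ = (HahnSeries.C c : LaurentSeries Q̄) * coeffMap A.subtype U₁ := by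
  obtain ⟨E, hE, y, hy, rfl⟩ := Fermat.Agent.S18.H602.exists_finite_descent hf
  haveI := hE
  haveI : IsDiscreteValuationRing ↥(RE A E) :=
    Fermat.Agent.S18.H602.isDiscreteValuationRing_RE A E hℓ hA
  obtain ⟨w₀, hd⟩ := exists_isDiscrete_of_dvr (RE A E)
  have hy0 : y ≠ 0 := by
    rintro rfl
    exact hf0 (map_zero _)
  obtain ⟨n, P₁, P₂, hP₁, hP₂, hp₁, hp₂, hrel⟩ := exists_prim_quot_lbc hd hS hy hy0
  obtain ⟨U₁, hU₁, hr₁⟩ := exists_lift_of_isPrim A E hp₁
  obtain ⟨U₂, hU₂, hr₂⟩ := exists_lift_of_isPrim A E hp₂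
  have hw : algebraMap E Q̄ w₀ ≠ 0 := by
    rw [Ne, map_eq_zero]
    exact hd.w_ne
  have hCw : (HahnSeries.C (algebraMap E Q̄ w₀) : LaurentSeries Q̄) ≠ 0 := by
    rw [Ne, map_eq_zero]
    exact hw
  refine ⟨(algebraMap E Q̄ w₀) ^ (-n), U₁, U₂, zpow_ne_zero _ hw, ?_, hr₁, ?_, hr₂, ?_⟩
  · rw [hU₁]
    exact Fermat.Agent.S18.H602.coeffMap_mem_laurentBaseChange _ _ hP₁
  · rw [hU₂]
    exact Fermat.Agent.S18.H602.coeffMap_mem_laurentBaseChange _ _ hP₂
  · have h1 := congrArg (coeffMap (algebraMap E Q̄)) hrel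
    rw [map_mul, map_mul, map_zpow₀, coeffMap_C'] at h1
    rw [hU₁, hU₂, ← h1, map_zpow₀, zpow_neg]
    field_simp

end Fermat.Agent.S48.H68
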