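/-
S48 / Tower A1 (helper68) — leaf VAL1 (= PGI1 in function form) CLOSED, and RawES1 from THREE inputs.

* `valG_top`  : for `F₀ = ℚ(S)`, `S` a set of series with integral coefficients, and every valuation
  subring `A ⊆ ℚ̄` over a prime: `H136.ValG F₀ A ⊤` (Gauss normalisation, `GaussNormal.lean`);
* `val1Top`   : `H136.ValG (F1 M) A ⊤` for EVERY `M`, every prime `p` and every `A` over `p`
  (unconditional; no hypothesis `p ∤ M`);
* `rawES1_of_three : H556.Core1Top → H136.HI1Statement → H136.NormId1Statement →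
    Res.RawES1Statement true`
  (helper136's engine v2 `eskV_inertia` / `eskV_frob` with reduction field `F_k := ⊤`).

So RawES1 needs ONLY: CORE1 (top form), HI1 (= `CorrInputs beta1 alpha1`), NORMID1.
No PGI / PGID / VAL / DIA-INT / reduction-field statement is left.
-/
import Fermat.Agent.S48.H136.RawES1V
import Fermat.Agent.S48.H556.RawES1Top
import Fermat.Agent.S48.H68.GaussNormal

set_option autoImplicit false
set_option linter.style.haveILetI false

noncomputable section

namespace Fermat.Agent.S48.H68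

open ModularCurve AlgebraicCurve HahnSeries IsLocalRing
open Fermat.Agent.S18 (Qb)
open Fermat.Agent.S48.F1 Fermat.Agent.S48.Res Fermat.Agent.S48.H136 Fermat.Agent.S48.H556

/-- **VAL (top form), generic**: Gauss normalisation in the vocabulary of helper136's engine. -/
theorem valG_top {S : Set (LaurentSeries ℚ)} (hS : IntegralGens S) (A : ValuationSubring Qb)
    {ℓ : ℕ} (hℓ : ℓ ≠ 0) (hA : A.LiesOverPrime ℓ) :
    ValG (IntermediateField.adjoin ℚ S) A (topK A) := by
  intro f hf
  have hf0 : (f : LaurentSeries Qb) ≠ 0 := fun h => hf (Subtype.ext h)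
  obtain ⟨c, U₁, U₂, hc, hm₁, hr₁, hm₂, hr₂, hrel⟩ := exists_gauss_normal hS A hℓ hA f.2 hf0
  refine ⟨c, U₁, U₂, isIntG_top_iff.2 ⟨hm₁, hr₁⟩, isIntG_top_iff.2 ⟨hm₂, hr₂⟩, hc, ?_⟩
  apply Subtype.ext
  show (f : LaurentSeries Qb) * coeffMap A.subtype U₂
    = algebraMap Qb (LaurentSeries Qb) c * coeffMap A.subtype U₁
  rw [algebraMap_eq_C]
  exact hrel

/-- The generators `j(q^d)`, `P_a` of `F1 M` have integral coefficients. -/
theorem integralGens_F1 (M : ℕ) : IntegralGens (divisorExpansions M ∪ divGens M) := by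
  rintro s (hs | hs)
  · obtain ⟨d, hd, -, rfl⟩ := hs
    haveI := hd
    refine ⟨qExpand ℤ d (jqModC ℤ), ?_⟩
    rw [Fermat.Agent.S37.H400.coeffMap_qExpand_h400, coeffMap_jqModC, jqModC_rat]
  · obtain ⟨a, -, rfl⟩ := hs
    exact ⟨divGenC ℤ M a, (coeffMap_divGenC (Int.castRingHom ℚ) M a).symm⟩

/-- **VAL1 (top form), UNCONDITIONAL**: every nonzero element of `ℚ̄ · F1 M` is a constant times a
quotient of two `A`-integral series of `ℚ̄ · F1 M` with nonzero reduction. -/
theorem val1Top (M : ℕ) {p : ℕ} (hp : p.Prime) (A : ValuationSubring Qb)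
    (hA : A.LiesOverPrime p) : ValG (F1 M) A (topK A) :=
  valG_top (integralGens_F1 M) A hp.ne_zero hA

/-- **RawES1 from THREE inputs**: CORE1 (top form), HI1 and NORMID1. -/
theorem rawES1_of_three (hcore : Core1Top) (hHI : HI1Statement) (hnid : NormId1Statement) :
    RawES1Statement true := by
  intro M ℓ p hM hℓ hp hpMℓ A hA
  have hpM : ¬ p ∣ M := fun h => hpMℓ (Dvd.dvd.mul_right h ℓ)
  haveI : NeZero p := ⟨hp.ne_zero⟩
  have hC := hcore M ℓ p hM hℓ hp hpMℓ A hA
  have hV := val1Top M hp A hA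
  have hst := stableG_top A
  refine ⟨eskV_inertia hℓ.ne_zero hC hV hst, ?_⟩
  intro σ hσ x hx
  obtain ⟨hβ, hα, hPD, hfin, hFI, hN⟩ := hHI M p hM hp hpM
  haveI := hPD
  have h := eskV_frob hp hℓ.ne_zero hA hC hV hst (alpha1 Qb M p) (beta1 Qb M p) hα hβ hFI hfin hN
    (diamondAut Qb M (unitOf M p)) (fun τ y => diamondAut_galois M (unitOf M p) τ y)
    (hnid M p hM hp hpM) σ hσ x hx
  have hT : hecke1 M p = (Pic0.correspondence (beta1 Qb M p) (alpha1 Qb M p) hβ hα hFI hfin
      hN).toIntLinearMap := by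
    rw [hecke1_eq, heckeL, corrOp_eq (beta1 Qb M p) (alpha1 Qb M p) hβ hα hFI hfin hN]
  have hD : diamondS true M p (σ • σ • x)
      = σ • σ • (diamondAut Qb M (unitOf M p) • x) := by
    show diamond1 M (unitOf M p) (σ • σ • x) = _
    rw [galois_smul_diamond1, galois_smul_diamond1, diamond1_apply, pic0_ofAlgAut_smul]
  rw [hD, hT]
  exact h

end Fermat.Agent.S48.H68
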