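import Fermat.Agent.S29.H872.Cheb
import Fermat.Agent.S55.G.Rec.H721Cyc
import Fermat.Agent.S55.H414.CycloPow
import Fermat.Agent.S48.Top.Spec

/-!
# S48 / RES (Tower A1) — layer A with nebentypus (helper68)

`Top.ResidualStatement` (the deep input "P2 + P3" of the row) is reduced to the existence of the
**Eichler–Shimura module with character**:

  `ModHypChar ε f ℓ ψ` : a nonzero finite dimensional `F[G_ℚ]`-module of finite level, unramified
  outside `N ℓ`, on which every Frobenius element at a prime `p ∤ N ℓ` satisfies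
  `σ² - ψ(a_p) σ + ψ(ε(p)) = 0`

for algebraically closed fields `F` of characteristic `ℓ` and all `ψ : ℤ̄ → F`.

Main results (namespace `Fermat.Agent.S48.H68`):

* `epsGal ε ψ : G_ℚ →* F` — the Galois character of the Dirichlet character `ε` (through the
  cyclotomic character mod `N`), pushed to `F` by `ψ`; `epsGal_frobenius`, `epsGal_inertia`,
  `epsGal_eq_one_of_fixes`.
* `exists_residualGaloisRep_of_module_char` — the glue (nebentypus analogue of
  `S29.H872.exists_residualGaloisRep_of_module`).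
* `residualStatement_of_modHyp : (∀ …, ModHypChar ε f ℓ ψ) → Top.ResidualStatement`.

Everything deep that remains in `Top.ResidualStatement` is therefore `ModHypChar`
(= the `ε ω⁻¹`-part of the `ℓ`-torsion of the Jacobian of `X₁(Nℓ)`, Tower A1).
-/

set_option autoImplicit false

open Polynomial CongruenceSubgroup

namespace Fermat.Agent.S48.H68

open Fermat.Agent.Lib.Cheb.Spec Fermat.Agent.S48.Top Fermat.Agent.S29.H872
open Fermat.Agent.S55.H414

/-! ## The Galois character of a Dirichlet character -/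

section character

variable {N : ℕ} [NeZero N] (ε : DirichletCharacter ℂ N)

/-- The values of a Dirichlet character on units are algebraic integers. -/
theorem isIntegral_dirichlet (u : (ZMod N)ˣ) : IsIntegral ℤ (ε (u : ZMod N)) := by
  have h : (ε (u : ZMod N)) ^ (Fintype.card (ZMod N)ˣ) = 1 := by
    rw [← map_pow, ← Units.val_pow_eq_pow_val, pow_card_eq_one, Units.val_one, map_one]
  exact IsIntegral.of_pow Fintype.card_pos (h ▸ isIntegral_one)

/-- The Dirichlet character `ε` as a homomorphism `(ℤ/N)ˣ → ℤ̄`. -/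
noncomputable def epsInt : (ZMod N)ˣ →* Zbar where
  toFun u := ⟨ε (u : ZMod N), isIntegral_dirichlet ε u⟩
  map_one' := Subtype.ext (by simp)
  map_mul' u v := Subtype.ext (by simp)

theorem coe_epsInt (u : (ZMod N)ˣ) : ((epsInt ε u : Zbar) : ℂ) = ε (u : ZMod N) := rfl

variable {F : Type*} [Field F] (ψ : Zbar →+* F)

/-- The Galois character attached to `ε`, with values in `F` (through `ψ : ℤ̄ → F`). -/
noncomputable def epsGal : GQ →* F :=
  (ψ : Zbar →* F).comp ((epsInt ε).comp (cycloPow N))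

theorem epsGal_apply (σ : GQ) : epsGal ε ψ σ = ψ (epsInt ε (cycloPow N σ)) := rfl

/-- If `σ ζ_N = ζ_N ^ a` then the Galois character of `ε` takes the value `ψ(ε(a))` at `σ`. -/
theorem epsGal_of_apply_eq_pow (σ : GQ) (a : ℕ) (h : σ (zetaBar N) = zetaBar N ^ a)
    (e : Zbar) (he : (e : ℂ) = ε (a : ZMod N)) : epsGal ε ψ σ = ψ e := by
  rw [epsGal_apply]
  congr 1
  apply Subtype.ext
  rw [coe_epsInt, coe_cycloPow_of_apply_eq_pow N σ a h, he]

theorem epsGal_eq_one_of_fixes (σ : GQ) (h : σ (zetaBar N) = zetaBar N) : epsGal ε ψ σ = 1 := by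
  have h1 : σ (zetaBar N) = zetaBar N ^ 1 := by rw [pow_one]; exact h
  rw [epsGal_of_apply_eq_pow ε ψ σ 1 h1 1 (by simp), map_one]

theorem zetaBar_pow (N : ℕ) [NeZero N] : zetaBar N ^ N = 1 := (zetaBar_spec N).pow_eq_one

/-- The Galois character of `ε` is unramified at the primes not dividing `N`. -/
theorem epsGal_inertia {q : ℕ} (hq : q.Prime) (hqN : ¬ q ∣ N) (A : ValuationSubring Qb)
    (hA : A.LiesOverPrime q) (σ : GQ) (hσ : σ ∈ A.inertiaSubgroupIn ℚ) : epsGal ε ψ σ = 1 :=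
  epsGal_eq_one_of_fixes ε ψ σ
    (Fermat.Agent.S55.G.Rec.H721.inertia_apply_root hA
      ((Nat.Prime.coprime_iff_not_dvd hq).2 hqN) hσ (zetaBar_pow N))

/-- The Galois character of `ε` at a Frobenius element at `q ∤ N` is `ψ(ε(q))`. -/
theorem epsGal_frobenius {q : ℕ} (hq : q.Prime) (hqN : ¬ q ∣ N) (A : ValuationSubring Qb)
    (hA : A.LiesOverPrime q) (τ : GQ) (hτ : A.IsFrobeniusAt τ q)
    (e : Zbar) (he : (e : ℂ) = ε (q : ZMod N)) : epsGal ε ψ τ = ψ e :=
  epsGal_of_apply_eq_pow ε ψ τ q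
    (Fermat.Agent.S55.G.Rec.H721.frobenius_apply_root hA
      ((Nat.Prime.coprime_iff_not_dvd hq).2 hqN) hτ (zetaBar_pow N)) e he

end character

/-! ## The glue -/

/-- **Glue with nebentypus.**  `F` algebraically closed, `M` a nonzero finite dimensional
`F[G_ℚ]`-module of finite level, unramified outside a finite set `S` containing the primes
dividing `N`, such that every Frobenius element at `q ∉ S` satisfies
`σ² = c(q) σ - ψ(e_q)`, `e_q = ε(q)`.  Then there is a two-dimensional representation, unramified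
outside `S`, with `charpoly (ρ Frob_q) = X² - c(q) X + ψ(ε(q))`. -/
theorem exists_residualGaloisRep_of_module_char {N : ℕ} [NeZero N] (ε : DirichletCharacter ℂ N)
    {F : Type} [Field F] [IsAlgClosed F] (ψ : Zbar →+* F)
    {M : Type} [AddCommGroup M] [Module F M] [FiniteDimensional F M] [Nontrivial M]
    (r : GQ →* Module.End F M) (hfin : GaloisFactorsThroughFiniteLevel r)
    (S : Finset ℕ) (hNS : ∀ q : ℕ, q.Prime → q ∣ N → q ∈ S) (c : ℕ → F) (e : ℕ → Zbar)
    (he : ∀ q : ℕ, q.Prime → q ∉ S → ((e q : Zbar) : ℂ) = ε (q : ZMod N))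
    (hunr : ∀ q : ℕ, q.Prime → q ∉ S → ∀ A : ValuationSubring Qb,
      A.LiesOverPrime q → ∀ σ ∈ A.inertiaSubgroupIn ℚ, r σ = 1)
    (hES : ∀ q : ℕ, q.Prime → q ∉ S → ∀ A : ValuationSubring Qb,
      A.LiesOverPrime q → ∀ σ : GQ, A.IsFrobeniusAt σ q →
        r σ * r σ = c q • r σ - ψ (e q) • 1)
    (hCheb : WeakCheb) :
    ∃ ρ : ResidualGaloisRep F,
      (∀ q : ℕ, q.Prime → q ∉ S → ρ.IsUnramifiedAt q) ∧
      ∀ q : ℕ, q.Prime → q ∉ S → ∀ A : ValuationSubring Qb,
        A.LiesOverPrime q → ∀ σ : GQ, A.IsFrobeniusAt σ q →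
          LinearMap.charpoly (ρ.ρ σ) = X ^ 2 - C (c q) * X + C (ψ (e q)) := by
  classical
  obtain ⟨L₀, hL₀fd, hL₀⟩ := hfin
  have := hL₀fd
  obtain ⟨s₀, hs₀⟩ := exists_finset_level L₀
  let s₁ : Finset Qb := {zetaBar N}
  have hqN : ∀ q : ℕ, q.Prime → q ∉ S → ¬ q ∣ N := fun q hq hqS hd => hqS (hNS q hq hd)
  -- the quadratic relation for every element of the Galois group
  have hall : ∀ σ : GQ, ∃ a' : F, r σ * r σ = a' • r σ - epsGal ε ψ σ • 1 := by
    intro σ
    obtain ⟨q, A, τ, j, hq, hqS, hA, hτ, hagree⟩ := hCheb (s₀ ∪ s₁) σ S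
    have h0 : ∀ x ∈ L₀, (τ ^ j) x = σ x :=
      hs₀ _ _ (fun x hx => hagree x (Finset.mem_union_left _ hx))
    have hfix : ∀ x : Qb, (τ ^ j) x = σ x → (σ⁻¹ * τ ^ j) x = x := by
      intro x hx
      rw [AlgEquiv.mul_apply, hx]
      exact σ.symm_apply_apply x
    have hr : r σ = r τ ^ j := by
      have h1 : r (σ⁻¹ * τ ^ j) = 1 := hL₀ _ (fun x hx => hfix x (h0 x hx))
      have h2 : r σ * r (σ⁻¹ * τ ^ j) = r τ ^ j := by
        rw [← map_mul, mul_inv_cancel_left, map_pow]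
      rw [h1, mul_one] at h2
      exact h2
    have hd : epsGal ε ψ σ = epsGal ε ψ τ ^ j := by
      have h1 : epsGal ε ψ (σ⁻¹ * τ ^ j) = 1 :=
        epsGal_eq_one_of_fixes ε ψ _
          (hfix _ (hagree _ (Finset.mem_union_right _ (Finset.mem_singleton_self _))))
      have h2 : epsGal ε ψ σ * epsGal ε ψ (σ⁻¹ * τ ^ j) = epsGal ε ψ τ ^ j := by
        rw [← map_mul, mul_inv_cancel_left, map_pow]
      rw [h1, mul_one] at h2
      exact h2
    have hτrel := hES q hq hqS A hA τ hτ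
    have hdτ : epsGal ε ψ τ = ψ (e q) :=
      epsGal_frobenius ε ψ hq (hqN q hq hqS) A hA τ hτ (e q) (he q hq hqS)
    obtain ⟨a', ha'⟩ := exists_pow_rel hτrel j
    exact ⟨a', by rw [hr, hd, hdτ]; exact ha'⟩
  choose a ha using hall
  obtain ⟨V, iA, iM, iFin, ρ, hfr, htriv, hchar⟩ := exists_two_dim r (epsGal ε ψ) a ha
  -- the level of `ρ`
  have hint : ∀ x ∈ (s₁ : Set Qb), IsIntegral ℚ x := fun x _ =>
    (AlgebraicClosure.isAlgebraic ℚ).isIntegral.isIntegral x
  have : FiniteDimensional ℚ (IntermediateField.adjoin ℚ (s₁ : Set Qb)) :=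
    IntermediateField.finiteDimensional_adjoin hint
  have hlevel : GaloisFactorsThroughFiniteLevel ρ := by
    refine ⟨L₀ ⊔ IntermediateField.adjoin ℚ (s₁ : Set Qb), inferInstance,
      fun σ hσ => htriv σ (hL₀ σ fun x hx => hσ x ?_) (epsGal_eq_one_of_fixes ε ψ σ (hσ _ ?_))⟩
    · exact (le_sup_left : L₀ ≤ _) hx
    · exact (le_sup_right : IntermediateField.adjoin ℚ (s₁ : Set Qb) ≤ _)
        (IntermediateField.subset_adjoin ℚ _ (by simp [s₁]))
  refine ⟨@ResidualGaloisRep.mk F _ V iA iM hfr ρ hlevel, ?_, ?_⟩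
  · intro q hq hqS A hA σ hσ
    exact htriv σ (hunr q hq hqS A hA σ hσ) (epsGal_inertia ε ψ hq (hqN q hq hqS) A hA σ hσ)
  · intro q hq hqS A hA σ hσ
    have hdσ : epsGal ε ψ σ = ψ (e q) :=
      epsGal_frobenius ε ψ hq (hqN q hq hqS) A hA σ hσ (e q) (he q hq hqS)
    have h := hchar σ (c q) (by rw [hdσ]; exact hES q hq hqS A hA σ hσ)
    rw [hdσ] at h
    exact h

/-! ## `Top.ResidualStatement` from the Eichler–Shimura module with character -/

/-- **MOD with character** (hypothesis shape; the deep output of Tower A1): the Eichler–Shimura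
module of the weight-one eigensystem `(f, ε)` over `F`, for the prime `ℓ`. -/
def ModHypChar {N : ℕ} [NeZero N] (ε : DirichletCharacter ℂ N) (f : CuspForm (Gamma1 N) 1)
    (ℓ : ℕ) {F : Type} [Field F] (ψ : Zbar →+* F) : Prop :=
  ∃ (M : Type) (_ : AddCommGroup M) (_ : Module F M) (_ : FiniteDimensional F M)
    (_ : Nontrivial M) (r : GQ →* Module.End F M),
    GaloisFactorsThroughFiniteLevel r ∧
    (∀ p : ℕ, p.Prime → ¬ p ∣ N * ℓ → ∀ A : ValuationSubring Qb,
      A.LiesOverPrime p → ∀ σ ∈ A.inertiaSubgroupIn ℚ, r σ = 1) ∧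
    (∀ p : ℕ, p.Prime → ¬ p ∣ N * ℓ →
      ∃ a e : Zbar, (a : ℂ) = ModularFormClass.qCoeff f p ∧ (e : ℂ) = ε (p : ZMod N) ∧
        ∀ A : ValuationSubring Qb, A.LiesOverPrime p →
          ∀ σ : GQ, A.IsFrobeniusAt σ p → r σ * r σ = ψ a • r σ - ψ e • 1)

/-- The conclusion of `Top.ResidualStatement` for one `(ℓ, k, φ)`, from the module over the
(algebraically closed) image field of `φ`. -/
theorem residual_of_modHyp_field {N : ℕ} [NeZero N] (ε : DirichletCharacter ℂ N)
    (f : CuspForm (Gamma1 N) 1) {ℓ : ℕ} (hℓ : ℓ.Prime) {k : Type} [Field k]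
    (φ : Zbar →+* k) {F : Type} [Field F] [IsAlgClosed F] (ψ : Zbar →+* F) (ι : F →+* k)
    (hι : ∀ a, ι (ψ a) = φ a) (hMod : ModHypChar ε f ℓ ψ) :
    ∃ ρ : ResidualGaloisRep k,
      ∀ p : ℕ, p.Prime → ¬ p ∣ N * ℓ → ρ.IsUnramifiedAt p ∧
        ∀ A : ValuationSubring Qb, A.LiesOverPrime p →
          ∀ σ : GQ, A.IsFrobeniusAt σ p →
            ∃ a e : Zbar, (a : ℂ) = ModularFormClass.qCoeff f p ∧
              (e : ℂ) = ε (p : ZMod N) ∧
              LinearMap.charpoly (ρ.ρ σ) =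
                Polynomial.X ^ 2 - Polynomial.C (φ a) * Polynomial.X + Polynomial.C (φ e) := by
  classical
  obtain ⟨M, iA, iM, iFD, iNT, r, hfin, hunr, hES⟩ := hMod
  have hNℓ : N * ℓ ≠ 0 := Nat.mul_ne_zero (NeZero.ne N) hℓ.ne_zero
  let S : Finset ℕ := (N * ℓ).primeFactors
  have hS : ∀ q : ℕ, q.Prime → (q ∉ S ↔ ¬ q ∣ N * ℓ) := fun q hq => by
    simp only [S, Nat.mem_primeFactors, not_and, not_not]
    constructor
    · intro h hd
      exact hNℓ (h hq hd)
    · intro h _ hd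
      exact absurd hd h
  have hNS : ∀ q : ℕ, q.Prime → q ∣ N → q ∈ S := by
    intro q hq hd
    by_contra h
    exact ((hS q hq).1 h) (Dvd.dvd.mul_right hd ℓ)
  -- choice of the coefficients
  have hex : ∀ q : ℕ, ∃ ae : Zbar × Zbar, q.Prime → q ∉ S →
      (ae.1 : ℂ) = ModularFormClass.qCoeff f q ∧ (ae.2 : ℂ) = ε (q : ZMod N) ∧
        ∀ A : ValuationSubring Qb, A.LiesOverPrime q →
          ∀ σ : GQ, A.IsFrobeniusAt σ q → r σ * r σ = ψ ae.1 • r σ - ψ ae.2 • 1 := by
    intro q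
    by_cases hq : q.Prime ∧ q ∉ S
    · obtain ⟨a, e, ha, he, hrel⟩ := hES q hq.1 ((hS q hq.1).1 hq.2)
      exact ⟨(a, e), fun _ _ => ⟨ha, he, hrel⟩⟩
    · exact ⟨(0, 0), fun h1 h2 => absurd ⟨h1, h2⟩ hq⟩
  choose ae hae using hex
  obtain ⟨ρ₀, hρunr, hρchar⟩ := exists_residualGaloisRep_of_module_char ε ψ r hfin S hNS
    (fun q => ψ (ae q).1) (fun q => (ae q).2)
    (fun q hq hqS => (hae q hq hqS).2.1)
    (fun q hq hqS => hunr q hq ((hS q hq).1 hqS))
    (fun q hq hqS A hA σ hσ => (hae q hq hqS).2.2 A hA σ hσ) weakCheb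
  refine ⟨ρ₀.baseChangeAlong ι, fun p hp hpS => ⟨?_, ?_⟩⟩
  · intro A hA σ hσ
    have h := hρunr p hp ((hS p hp).2 hpS) A hA σ hσ
    let _ : Algebra F k := ι.toAlgebra
    change (ρ₀.ρ σ).baseChange k = 1
    rw [h, LinearMap.baseChange_one]
  · intro A hA σ hσ
    have hpS' := (hS p hp).2 hpS
    refine ⟨(ae p).1, (ae p).2, (hae p hp hpS').1, (hae p hp hpS').2.1, ?_⟩
    have h := hρchar p hp hpS' A hA σ hσ
    let _ : Algebra F k := ι.toAlgebra
    change LinearMap.charpoly ((ρ₀.ρ σ).baseChange k) = _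
    rw [LinearMap.charpoly_baseChange, h]
    simp only [Polynomial.map_add, Polynomial.map_sub, Polynomial.map_mul, Polynomial.map_pow,
      Polynomial.map_X, Polynomial.map_C]
    rw [show (algebraMap F k) (ψ (ae p).1) = φ (ae p).1 from hι _,
      show (algebraMap F k) (ψ (ae p).2) = φ (ae p).2 from hι _]

/-- **`Top.ResidualStatement` from the Eichler–Shimura modules with character.** -/
theorem residualStatement_of_modHyp
    (h : ∀ (N : ℕ) [NeZero N] (ε : DirichletCharacter ℂ N) (f : CuspForm (Gamma1 N) 1),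
      IsEigen N ε f → ∃ B : ℕ, ∀ ℓ : ℕ, ℓ.Prime → B < ℓ →
        ∀ (F : Type) [Field F] [IsAlgClosed F] [CharP F ℓ] (ψ : Zbar →+* F),
          ModHypChar ε f ℓ ψ) :
    Top.ResidualStatement := by
  intro N _ ε f hf
  obtain ⟨B, hB⟩ := h N ε f hf
  refine ⟨B, fun ℓ hℓ hBℓ k _ _ φ => ?_⟩
  have := isAlgClosed_imageField hℓ φ
  have hchar : CharP (imageField hℓ φ) ℓ :=
    (imageField hℓ φ).subtype.charP (imageField hℓ φ).subtype.injective ℓ
  exact residual_of_modHyp_field ε f hℓ φ (toImageField hℓ φ) (imageField hℓ φ).subtype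
    (fun a => coe_toImageField hℓ φ a) (hB ℓ hℓ hBℓ _ _)

end Fermat.Agent.S48.H68
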