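import Fermat.Agent.S48.H68.ResAlg
import Fermat.Agent.S29.Orb

/-!
# S48 / RES (Tower A1) — the module hand-in shape (helper68)

`FrobModuleChar ε f ℓ ψ`: a nonzero **smooth** `F[G_ℚ]`-module (no finiteness), unramified outside
`N ℓ`, on which every Frobenius element at `p ∤ N ℓ` satisfies `σ² - ψ(a_p) σ + ψ(ε(p)) = 0`
(pointwise form).  This is what the torsion of a Jacobian produces directly
(`M = {x ∈ F ⊗ J₁(Nℓ)[ℓ] : T_p x = ψ(a_p) x, ⟨d⟩ x = ψ(ε(d)) d⁻¹ x}`).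

* `modHypChar_of_frobModule : FrobModuleChar ε f ℓ ψ → ModHypChar ε f ℓ ψ`
* `residualStatement_of_frobModule : (∀ …, FrobModuleChar ε f ℓ ψ) → Top.ResidualStatement`
-/

set_option autoImplicit false

open Polynomial CongruenceSubgroup

namespace Fermat.Agent.S48.H68

open Fermat.Agent.Lib.Cheb.Spec Fermat.Agent.S48.Top

/-- **Hand-in shape of Tower A1**: a nonzero smooth Galois module with the Eichler–Shimura
relations with character, in pointwise form. -/
def FrobModuleChar {N : ℕ} [NeZero N] (ε : DirichletCharacter ℂ N) (f : CuspForm (Gamma1 N) 1)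
    (ℓ : ℕ) {F : Type} [Field F] (ψ : Zbar →+* F) : Prop :=
  ∃ (M : Type) (_ : AddCommGroup M) (_ : Module F M) (_ : Nontrivial M)
    (ρ : GQ →* Module.End F M),
    (∀ x : M, ∃ L : IntermediateField ℚ Qb, FiniteDimensional ℚ L ∧
      ∀ σ : GQ, (∀ y ∈ L, σ y = y) → ρ σ x = x) ∧
    (∀ p : ℕ, p.Prime → ¬ p ∣ N * ℓ → ∀ A : ValuationSubring Qb,
      A.LiesOverPrime p → ∀ σ ∈ A.inertiaSubgroupIn ℚ, ∀ x : M, ρ σ x = x) ∧
    (∀ p : ℕ, p.Prime → ¬ p ∣ N * ℓ →
      ∃ a e : Zbar, (a : ℂ) = ModularFormClass.qCoeff f p ∧ (e : ℂ) = ε (p : ZMod N) ∧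
        ∀ A : ValuationSubring Qb, A.LiesOverPrime p →
          ∀ σ : GQ, A.IsFrobeniusAt σ p → ∀ x : M,
            ρ σ (ρ σ x) - ψ a • ρ σ x + ψ e • x = 0)

theorem modHypChar_of_frobModule {N : ℕ} [NeZero N] {ε : DirichletCharacter ℂ N}
    {f : CuspForm (Gamma1 N) 1} {ℓ : ℕ} {F : Type} [Field F] {ψ : Zbar →+* F}
    (h : FrobModuleChar ε f ℓ ψ) : ModHypChar ε f ℓ ψ := by
  obtain ⟨M, _, _, hnt, ρ, hsm, hur, hfq⟩ := h
  obtain ⟨W, hW0, hWfin, hWst, L, hL, hLfix⟩ :=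
    Fermat.Agent.S29.exists_finite_stable_submodule ρ hsm
  let r : GQ →* Module.End F W :=
    { toFun := fun σ => (ρ σ).restrict (hWst σ)
      map_one' := by
        ext x
        simp
      map_mul' := fun σ τ => by
        ext x
        simp [LinearMap.restrict_apply] }
  have hr : ∀ (σ : GQ) (x : W), ((r σ x : W) : M) = ρ σ (x : M) := fun _ _ => rfl
  have : Nontrivial W := (Submodule.nontrivial_iff_ne_bot).mpr hW0
  refine ⟨W, inferInstance, inferInstance, hWfin, inferInstance, r, ⟨L, hL, ?_⟩, ?_, ?_⟩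
  · intro σ hσ
    ext x
    rw [hr, hLfix σ hσ x x.2]
    rfl
  · intro p hp hS A hA σ hσ
    ext x
    rw [hr, hur p hp hS A hA σ hσ]
    rfl
  · intro p hp hS
    obtain ⟨a, e, ha, he, hrel⟩ := hfq p hp hS
    refine ⟨a, e, ha, he, fun A hA σ hσ => ?_⟩
    ext x
    have h1 := hrel A hA σ hσ (x : M)
    simp only [LinearMap.sub_apply, Module.End.mul_apply, LinearMap.smul_apply,
      Module.End.one_apply, Submodule.coe_sub, Submodule.coe_smul, hr]
    rw [sub_add_eq_add_sub, sub_eq_zero] at h1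
    rw [eq_sub_iff_add_eq, h1]

/-- **`Top.ResidualStatement` from the smooth Eichler–Shimura modules with character.** -/
theorem residualStatement_of_frobModule
    (h : ∀ (N : ℕ) [NeZero N] (ε : DirichletCharacter ℂ N) (f : CuspForm (Gamma1 N) 1),
      IsEigen N ε f → ∃ B : ℕ, ∀ ℓ : ℕ, ℓ.Prime → B < ℓ →
        ∀ (F : Type) [Field F] [IsAlgClosed F] [CharP F ℓ] (ψ : Zbar →+* F),
          FrobModuleChar ε f ℓ ψ) :
    Top.ResidualStatement :=
  residualStatement_of_modHyp fun N _ ε f hf => by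
    obtain ⟨B, hB⟩ := h N ε f hf
    exact ⟨B, fun ℓ hℓ hBℓ F _ _ _ ψ => modHypChar_of_frobModule (hB ℓ hℓ hBℓ F ψ)⟩

end Fermat.Agent.S48.H68
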